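import Fermat.Agent.MertensThird.Limit
import Mathlib.Analysis.Complex.AbelLimit
import Mathlib.Analysis.Normed.Group.Tannery
import Mathlib.Analysis.SpecialFunctions.Log.NegMulLog
import Mathlib.NumberTheory.EulerProduct.DirichletLSeries
import Mathlib.NumberTheory.Harmonic.ZetaAsymp

/-!
# Mertens' constant is `γ` less the prime tail

With `x = e^(-h)` the sum `∑ p^(-1-h)` agrees up to `o (1)` with `∑ A k x^k`, `A k` the sum of `1/p`
over `k < log p ≤ k + 1`, and `∑ x^k / k = -log (1 - x)`. As `∑ (A k - 1/k)` converges to `M - γ`,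
Abel's limit theorem and `log ζ (1 + h) + log h → 0` give `M = γ - G`,
`G = ∑ (-log (1 - 1/p) - 1/p)`.
-/

set_option autoImplicit false

noncomputable section

namespace FA.MertensThird

open Finset Filter Real
open FA.ErdosKac (primesUpTo mem_primesUpTo recipSum)
open scoped Topology

/-- `-log (1 - t) - t`. -/
def logTail (t : ℝ) : ℝ := -log (1 - t) - t

theorem logTail_bounds {t : ℝ} (h2 : t ≤ 1 / 2) :
    0 ≤ logTail t ∧ logTail t ≤ 2 * t ^ 2 := by
  have h1 := Real.log_le_sub_one_of_pos (show 0 < 1 - t by linarith)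
  have h3 := Real.one_sub_inv_le_log_of_pos (show 0 < 1 - t by linarith)
  have h4 : (1 - t)⁻¹ ≤ 1 + t + 2 * t ^ 2 := by
    rw [inv_le_iff_one_le_mul₀ (by linarith)]
    nlinarith [mul_nonneg (sq_nonneg t) (show 0 ≤ 1 - 2 * t by linarith)]
  unfold logTail
  constructor <;> linarith

/-- `p^(-1-h)` at the primes, else `0`. -/
def primeP (h : ℝ) (n : ℕ) : ℝ := if n.Prime then (n : ℝ) ^ (-(1 + h)) else 0

/-- `-log (1 - p^(-1-h)) - p^(-1-h)` at the primes, else `0`. -/
def primeG (h : ℝ) (n : ℕ) : ℝ := if n.Prime then logTail ((n : ℝ) ^ (-(1 + h))) else 0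

theorem norm_primeG_le {h : ℝ} (hh : 0 ≤ h) (n : ℕ) :
    ‖primeG h n‖ ≤ 2 * (1 / (n : ℝ) ^ 2) := by
  unfold primeG
  split_ifs with hp
  · have h2 : (2 : ℝ) ≤ n := Nat.ofNat_le_cast.2 hp.two_le
    have hle : (n : ℝ) ^ (-(1 + h)) ≤ (n : ℝ)⁻¹ := by
      rw [← Real.rpow_neg_one]
      exact Real.rpow_le_rpow_of_exponent_le (by linarith) (by linarith)
    have hn0 : 0 ≤ (n : ℝ) ^ (-(1 + h)) := Real.rpow_nonneg (Nat.cast_nonneg n) _
    obtain ⟨ha, hb⟩ := logTail_bounds
      (hle.trans (by rw [one_div]; exact inv_anti₀ two_pos h2))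
    rw [Real.norm_of_nonneg ha, one_div, ← inv_pow]
    exact hb.trans (mul_le_mul_of_nonneg_left (pow_le_pow_left₀ hn0 hle 2) zero_le_two)
  · rw [norm_zero]
    positivity

theorem summable_primeG {h : ℝ} (hh : 0 ≤ h) : Summable (primeG h) :=
  Summable.of_norm_bounded ((Real.summable_one_div_nat_pow.2 one_lt_two).mul_left 2)
    (norm_primeG_le hh)

theorem summable_primeP {h : ℝ} (hh : 0 < h) : Summable (primeP h) := by
  refine Summable.of_nonneg_of_le (fun n => ?_) (fun n => ?_)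
    (Real.summable_nat_rpow.2 (show -(1 + h) < -1 by linarith))
  · unfold primeP; split_ifs <;> positivity
  · unfold primeP; split_ifs
    exacts [le_rfl, Real.rpow_nonneg (Nat.cast_nonneg n) _]

theorem log_zeta_eq {h : ℝ} (hh : 0 < h) :
    log (riemannZeta ((1 + h : ℝ) : ℂ)).re = ∑' n, primeP h n + ∑' n, primeG h n := by
  obtain ⟨f, hf⟩ : ∃ f : ℕ → ℝ, f = fun n : ℕ => -log (1 - (n : ℝ) ^ (-(1 + h))) := ⟨_, rfl⟩
  have he := riemannZeta_eulerProduct_exp_log (s := ((1 + h : ℝ) : ℂ))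
    (by rw [Complex.ofReal_re]; linarith)
  have hterm : ∀ p : Nat.Primes,
      -Complex.log (1 - (p : ℂ) ^ (-((1 + h : ℝ) : ℂ))) = ((f p : ℝ) : ℂ) := fun p => by
    have hle : ((p : ℕ) : ℝ) ^ (-(1 + h)) ≤ 1 :=
      Real.rpow_le_one_of_one_le_of_nonpos (Nat.one_le_cast.2 p.2.one_le) (by linarith)
    rw [hf, Complex.ofReal_neg, Complex.ofReal_log (sub_nonneg.2 hle), Complex.ofReal_sub,
      Complex.ofReal_one, Complex.ofReal_cpow (Nat.cast_nonneg _), Complex.ofReal_neg]
    norm_num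
  rw [tsum_congr hterm, ← Complex.ofReal_tsum, ← Complex.ofReal_exp] at he
  rw [← he, Complex.ofReal_re, Real.log_exp,
    ← (summable_primeP hh).tsum_add (summable_primeG hh.le)]
  refine (tsum_subtype {p : ℕ | p.Prime} f).trans (tsum_congr fun n => ?_)
  rw [primeP, primeG, Set.indicator_apply]
  simp only [Set.mem_ofPred_eq]
  split_ifs
  · rw [logTail, hf]; ring
  · rw [add_zero]

theorem sum_primesUpTo_eq (F : ℕ → ℝ) (n : ℕ) :
    ∑ p ∈ primesUpTo n, F p = ∑ i ∈ range (n + 1), if i.Prime then F i else 0 := by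
  rw [← sum_filter]
  refine sum_congr (ext fun _ => ?_) fun _ _ => rfl
  rw [mem_primesUpTo, mem_filter, mem_range, Nat.lt_succ_iff, and_comm]

/-- The primes up to `e^k`. -/
def expPrimes (k : ℕ) : Finset ℕ := primesUpTo ⌊Real.exp k⌋₊

theorem mem_expPrimes {k p : ℕ} : p ∈ expPrimes k ↔ p.Prime ∧ log p ≤ k := by
  rw [expPrimes, mem_primesUpTo, and_congr_right_iff]
  intro hp
  rw [Nat.le_floor_iff (Real.exp_pos _).le, Real.log_le_iff_le_exp (Nat.cast_pos.2 hp.pos)]

theorem expPrimes_mono {j k : ℕ} (h : j ≤ k) : expPrimes j ⊆ expPrimes k := fun _ hp =>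
  mem_expPrimes.2 ⟨(mem_expPrimes.1 hp).1, (mem_expPrimes.1 hp).2.trans (Nat.cast_le.2 h)⟩

theorem expPrimes_zero : expPrimes 0 = ∅ :=
  eq_empty_of_forall_notMem fun p hp => by
    obtain ⟨hp, hle⟩ := mem_expPrimes.1 hp
    rw [Nat.cast_zero] at hle
    linarith [Real.log_pos (show (1 : ℝ) < p from Nat.one_lt_cast.2 hp.one_lt)]

/-- `∑ 1/p` over `k < log p ≤ k + 1`. -/
def expBlock (k : ℕ) : ℝ := ∑ p ∈ expPrimes (k + 1) \ expPrimes k, (p : ℝ)⁻¹

theorem sum_expBlock (K : ℕ) : ∑ k ∈ range K, expBlock k = recipSum ⌊Real.exp K⌋₊ := by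
  induction K with
  | zero => rw [recipSum, show primesUpTo _ = _ from expPrimes_zero]; simp
  | succ K ih =>
    rw [sum_range_succ, ih, expBlock, add_comm]
    exact sum_sdiff (expPrimes_mono K.le_succ)

theorem primeP_sandwich {h : ℝ} (hh : 0 ≤ h) (K : ℕ) :
    ∑ k ∈ range K, expBlock k * Real.exp (-h) ^ (k + 1) ≤ ∑ p ∈ expPrimes K, primeP h p ∧
      ∑ p ∈ expPrimes K, primeP h p ≤
        Real.exp h * ∑ k ∈ range K, expBlock k * Real.exp (-h) ^ (k + 1) := by
  induction K with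
  | zero => simp [expPrimes_zero]
  | succ K ih =>
    rw [sum_range_succ, mul_add, ← sum_sdiff (expPrimes_mono K.le_succ) (f := primeP h),
      add_comm (∑ p ∈ _ \ _, _)]
    have hmem : ∀ p ∈ expPrimes (K + 1) \ expPrimes K,
        primeP h p = (p : ℝ)⁻¹ * Real.exp (-(h * log p)) ∧
          (K : ℝ) < log p ∧ log p ≤ K + 1 := fun p hp => by
      rw [Finset.mem_sdiff, mem_expPrimes, mem_expPrimes, not_and, not_le] at hp
      refine ⟨?_, hp.2 hp.1.1, by exact_mod_cast hp.1.2⟩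
      have hp0 : (0 : ℝ) < p := Nat.cast_pos.2 hp.1.1.pos
      rw [primeP, if_pos hp.1.1, neg_add, Real.rpow_add hp0, Real.rpow_neg_one,
        Real.rpow_def_of_pos hp0]
      ring_nf
    refine ⟨add_le_add ih.1 ?_, add_le_add ih.2 ?_⟩
    · rw [expBlock, sum_mul]
      refine sum_le_sum fun p hp => ?_
      obtain ⟨e, h1, h2⟩ := hmem p hp
      rw [e, ← Real.exp_nat_mul]
      refine mul_le_mul_of_nonneg_left (Real.exp_le_exp.2 ?_) (inv_nonneg.2 (Nat.cast_nonneg p))
      push_cast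
      nlinarith
    · rw [expBlock, sum_mul, mul_sum]
      refine sum_le_sum fun p hp => ?_
      obtain ⟨e, h1, h2⟩ := hmem p hp
      rw [e, ← Real.exp_nat_mul, mul_left_comm, ← Real.exp_add]
      refine mul_le_mul_of_nonneg_left (Real.exp_le_exp.2 ?_) (inv_nonneg.2 (Nat.cast_nonneg p))
      push_cast
      nlinarith

/-- **The constant.** -/
theorem const_eq {M : ℝ} (hM : Tendsto (fun n : ℕ => recipSum n - log (log n)) atTop (𝓝 M)) :
    M = eulerMascheroniConstant - ∑' n, primeG 0 n := by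
  obtain ⟨a, ha⟩ : ∃ a : ℕ → ℝ, a = fun k : ℕ => expBlock k - 1 / ((k : ℝ) + 1) := ⟨_, rfl⟩
  have hfl : Tendsto (fun K : ℕ => ⌊Real.exp K⌋₊) atTop atTop :=
    tendsto_nat_floor_atTop.comp (Real.tendsto_exp_atTop.comp tendsto_natCast_atTop_atTop)
  have hpart : Tendsto (fun K => ∑ k ∈ range K, a k) atTop (𝓝 (M - eulerMascheroniConstant)) := by
    have h1 := ((hM.comp hfl).add (tendsto_loglog_floor_sub.comp
      (Real.tendsto_exp_atTop.comp tendsto_natCast_atTop_atTop))).sub tendsto_harmonic_sub_log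
    rw [add_zero] at h1
    refine h1.congr fun K => ?_
    simp only [Function.comp_apply, Real.log_exp]
    rw [ha, sum_sub_distrib, sum_expBlock]
    simp only [harmonic, Rat.cast_sum, Rat.cast_inv, Rat.cast_natCast, one_div]
    push_cast
    ring
  obtain ⟨C, hC⟩ : ∃ C, ∀ k, |a k| ≤ C := by
    have h0 : Tendsto (fun K => ‖a K‖) atTop (𝓝 0) := by
      have := ((hpart.comp (tendsto_add_atTop_nat 1)).sub hpart).norm
      simpa [Function.comp_def, sum_range_succ] using this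
    obtain ⟨C, hC⟩ := h0.bddAbove_range
    exact ⟨C, fun k => hC ⟨k, rfl⟩⟩
  -- the power series
  obtain ⟨A, hA⟩ : ∃ A : ℝ → ℝ, A = fun x => ∑' k, a k * x ^ k := ⟨_, rfl⟩
  obtain ⟨Q, hQ⟩ : ∃ Q : ℝ → ℝ,
      Q = fun h => Real.exp (-h) * A (Real.exp (-h)) - log (1 - Real.exp (-h)) := ⟨_, rfl⟩
  have hQsum : ∀ h, 0 < h →
      HasSum (fun k => expBlock k * Real.exp (-h) ^ (k + 1)) (Q h) := fun h hh => by
    obtain ⟨x, hxd⟩ : ∃ x, x = Real.exp (-h) := ⟨_, rfl⟩
    have hx0 : 0 < x := hxd ▸ Real.exp_pos _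
    have hx1 : x < 1 := hxd ▸ Real.exp_lt_one_iff.2 (by linarith)
    have hs : Summable fun k => a k * x ^ k :=
      Summable.of_norm_bounded ((summable_geometric_of_lt_one hx0.le hx1).mul_left C) fun k => by
        rw [norm_mul, Real.norm_eq_abs, norm_pow, Real.norm_of_nonneg hx0.le]
        exact mul_le_mul_of_nonneg_right (hC k) (pow_nonneg hx0.le k)
    have h2 := (hs.hasSum.mul_left x).add
      (Real.hasSum_pow_div_log_of_abs_lt_one (x := x) (by rwa [abs_of_pos hx0]))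
    rw [hQ, hA]
    simp only
    rw [← hxd, sub_eq_add_neg]
    refine h2.congr_fun fun k => ?_
    rw [ha]
    ring
  have hb : ∀ h, 0 < h → Q h ≤ ∑' n, primeP h n ∧ ∑' n, primeP h n ≤ Real.exp h * Q h := by
    intro h hh
    have hP : Tendsto (fun K => ∑ p ∈ expPrimes K, primeP h p) atTop (𝓝 (∑' n, primeP h n)) := by
      refine ((summable_primeP hh).hasSum.tendsto_sum_nat.comp
        ((tendsto_add_atTop_nat 1).comp hfl)).congr fun K => ?_
      simp only [Function.comp_apply, expPrimes, sum_primesUpTo_eq]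
      exact sum_congr rfl fun i _ => by unfold primeP; split_ifs <;> rfl
    have hQt := (hQsum h hh).tendsto_sum_nat
    exact ⟨le_of_tendsto_of_tendsto' hQt hP fun K => (primeP_sandwich hh.le K).1,
      le_of_tendsto_of_tendsto' hP (hQt.const_mul _) fun K => (primeP_sandwich hh.le K).2⟩
  have hx : Tendsto (fun h : ℝ => Real.exp (-h)) (𝓝[>] 0) (𝓝[<] 1) :=
    tendsto_nhdsWithin_iff.2 ⟨by
      simpa [Function.comp_def] using
        (((Real.continuous_exp.comp continuous_neg).tendsto (0 : ℝ)).mono_left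
          nhdsWithin_le_nhds),
      eventually_nhdsWithin_of_forall fun h (hh : 0 < h) => Real.exp_lt_one_iff.2 (by linarith)⟩
  have hA1 : Tendsto (fun h => A (Real.exp (-h))) (𝓝[>] 0) (𝓝 (M - eulerMascheroniConstant)) := by
    rw [hA]
    exact (Real.tendsto_tsum_powerSeries_nhdsWithin_lt hpart).comp hx
  have hx1 : Tendsto (fun h : ℝ => Real.exp (-h)) (𝓝[>] 0) (𝓝 1) := hx.mono_right nhdsWithin_le_nhds
  -- `∑ p^(-1-h) - Q → 0`
  have hPQ : Tendsto (fun h => ∑' n, primeP h n - Q h) (𝓝[>] 0) (𝓝 0) := by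
    have hlim : Tendsto (fun h : ℝ => Real.exp h * ((1 - Real.exp (-h)) *
        (Real.exp (-h) * A (Real.exp (-h))) -
          (1 - Real.exp (-h)) * log (1 - Real.exp (-h)))) (𝓝[>] 0) (𝓝 0) := by
      have h1 : Tendsto (fun h : ℝ => 1 - Real.exp (-h)) (𝓝[>] 0) (𝓝 0) := by
        simpa using (tendsto_const_nhds (x := (1 : ℝ))).sub hx1
      have h2 := (Real.continuous_mul_log.tendsto 0).comp h1
      have h3 : Tendsto (fun h : ℝ => Real.exp h) (𝓝[>] 0) (𝓝 1) := by
        simpa using (Real.continuous_exp.tendsto (0 : ℝ)).mono_left nhdsWithin_le_nhds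
      simpa using h3.mul ((h1.mul (hx1.mul hA1)).sub h2)
    refine squeeze_zero' (eventually_nhdsWithin_of_forall fun h hh => sub_nonneg.2 (hb h hh).1)
      (eventually_nhdsWithin_of_forall fun h hh => ?_) hlim
    refine (sub_le_sub_right (hb h hh).2 _).trans (le_of_eq ?_)
    rw [hQ]
    simp only
    rw [Real.exp_neg]
    field_simp
  -- `Q + log h → M - γ`
  have hQl : Tendsto (fun h => Q h + log h) (𝓝[>] 0) (𝓝 (M - eulerMascheroniConstant)) := by
    have hr : Tendsto (fun h : ℝ => (1 - Real.exp (-h)) / h) (𝓝[>] 0) (𝓝 1) := by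
      have h1 : Tendsto (fun h : ℝ => (1 + h)⁻¹) (𝓝[>] 0) (𝓝 1) := by
        simpa using ((tendsto_const_nhds (x := (1 : ℝ))).add
          ((tendsto_id (x := 𝓝 (0 : ℝ))).mono_left nhdsWithin_le_nhds)).inv₀ (by norm_num)
      refine tendsto_of_tendsto_of_tendsto_of_le_of_le' h1 tendsto_const_nhds
        (eventually_nhdsWithin_of_forall fun h (hh : 0 < h) => ?_)
        (eventually_nhdsWithin_of_forall fun h (hh : 0 < h) => ?_)
      · rw [le_div_iff₀ hh, Real.exp_neg]
        have := inv_anti₀ (show 0 < 1 + h by linarith)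
          (show 1 + h ≤ Real.exp h by linarith [Real.add_one_le_exp h])
        have e : (1 + h)⁻¹ * h = 1 - (1 + h)⁻¹ := by field_simp; ring
        linarith
      · rw [div_le_one hh]
        linarith [Real.add_one_le_exp (-h)]
    have h3 := (hx1.mul hA1).sub (hr.log one_ne_zero)
    rw [one_mul, Real.log_one, sub_zero] at h3
    refine h3.congr' (eventually_nhdsWithin_of_forall fun h (hh : 0 < h) => ?_)
    rw [hQ]
    simp only
    rw [Real.log_div (by linarith [Real.exp_lt_one_iff.2 (show -h < 0 by linarith)]) hh.ne']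
    ring
  -- the prime tail and zeta
  have hG : Tendsto (fun h => ∑' n, primeG h n) (𝓝[>] 0) (𝓝 (∑' n, primeG 0 n)) := by
    refine tendsto_tsum_of_dominated_convergence
      ((Real.summable_one_div_nat_pow.2 one_lt_two).mul_left 2) (fun n => ?_)
      (eventually_nhdsWithin_of_forall fun h (hh : 0 < h) => norm_primeG_le hh.le)
    unfold primeG
    split_ifs with hp
    · refine (ContinuousAt.tendsto ?_).mono_left nhdsWithin_le_nhds
      have hn0 : (n : ℝ) ≠ 0 := Nat.cast_ne_zero.2 hp.ne_zero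
      have hc : ContinuousAt (fun h : ℝ => (n : ℝ) ^ (-(1 + h))) 0 :=
        (Real.continuousAt_const_rpow hn0).comp (by fun_prop)
      have hne : (1 : ℝ) - (n : ℝ) ^ (-(1 + (0 : ℝ))) ≠ 0 := by
        rw [add_zero, Real.rpow_neg_one]
        have : (n : ℝ)⁻¹ < 1 := inv_lt_one_of_one_lt₀ (Nat.one_lt_cast.2 hp.one_lt)
        linarith
      exact (((continuousAt_const.sub hc).log hne).neg).sub hc
    · exact tendsto_const_nhds
  have hz : Tendsto (fun h : ℝ => log (riemannZeta ((1 + h : ℝ) : ℂ)).re + log h)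
      (𝓝[>] 0) (𝓝 0) := by
    have hm : Tendsto (fun h : ℝ => 1 + h) (𝓝[>] 0) (𝓝[>] 1) := tendsto_nhdsWithin_iff.2
      ⟨by simpa using ((tendsto_const_nhds (x := (1 : ℝ))).add
        ((tendsto_id (x := 𝓝 (0 : ℝ))).mono_left nhdsWithin_le_nhds)),
        eventually_nhdsWithin_of_forall fun h (hh : 0 < h) => by
          simp only [Set.mem_Ioi]; linarith⟩
    have h4 := ((Asymptotics.isLittleO_one_iff ℝ).1
      log_riemannZeta_add_log_sub_isLittleO_ofReal).comp hm
    simpa [Function.comp_def] using h4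
  have h5 : Tendsto (fun h : ℝ => log (riemannZeta ((1 + h : ℝ) : ℂ)).re + log h) (𝓝[>] 0)
      (𝓝 (0 + (M - eulerMascheroniConstant) + ∑' n, primeG 0 n)) :=
    ((hPQ.add hQl).add hG).congr' (eventually_nhdsWithin_of_forall fun h (hh : 0 < h) => by
      simp only
      rw [log_zeta_eq hh]; ring)
  linarith [tendsto_nhds_unique hz h5]

/-- **Mertens**: `-∑_{p ≤ n} log (1 - 1/p) - log log n → γ`. -/
theorem tendsto_sum_neg_log :
    Tendsto (fun n : ℕ => ∑ p ∈ primesUpTo n, -log (1 - (p : ℝ)⁻¹) - log (log n)) atTop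
      (𝓝 eulerMascheroniConstant) := by
  obtain ⟨M, hM⟩ := exists_tendsto_recipSum
  have hG := (summable_primeG le_rfl).hasSum.tendsto_sum_nat.comp (tendsto_add_atTop_nat 1)
  have h := hM.add hG
  rw [const_eq hM, sub_add_cancel] at h
  refine h.congr fun n => ?_
  simp only [Function.comp_apply, primeG]
  rw [← sum_primesUpTo_eq, recipSum, sub_add_eq_add_sub, ← sum_add_distrib]
  refine congrArg (· - _) (sum_congr rfl fun p _ => ?_)
  rw [logTail, add_zero, Real.rpow_neg_one]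
  ring

/-- **Mertens' third theorem.** -/
theorem tendsto_log_mul_prod :
    Tendsto (fun x : ℝ => log x * ∏ p ∈ primesUpTo ⌊x⌋₊, (1 - (p : ℝ)⁻¹)) atTop
      (𝓝 (Real.exp (-eulerMascheroniConstant))) := by
  have h := (tendsto_sum_neg_log.comp tendsto_nat_floor_atTop).add tendsto_loglog_floor_sub
  rw [add_zero] at h
  refine ((Real.continuous_exp.tendsto _).comp h.neg).congr' ?_
  filter_upwards [eventually_gt_atTop (1 : ℝ)] with x hx
  simp only [Function.comp_apply]
  have hpos : ∀ p ∈ primesUpTo ⌊x⌋₊, (0 : ℝ) < 1 - (p : ℝ)⁻¹ := fun p hp =>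
    sub_pos.2 (inv_lt_one_of_one_lt₀ (Nat.one_lt_cast.2 (mem_primesUpTo.1 hp).1.one_lt))
  rw [sum_neg_distrib, ← Real.log_prod fun p hp => (hpos p hp).ne']
  obtain ⟨P, hP⟩ : ∃ P, P = ∏ p ∈ primesUpTo ⌊x⌋₊, (1 - (p : ℝ)⁻¹) := ⟨_, rfl⟩
  have hP0 : 0 < P := hP ▸ prod_pos hpos
  rw [← hP]
  ring_nf
  rw [Real.exp_add, Real.exp_log hP0, Real.exp_log (Real.log_pos hx), mul_comm]

end FA.MertensThird
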