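import Fermat.Agent.MertensThird.Constant
import Mathlib.NumberTheory.Primorial

/-!
# The extreme orders of `φ` and `σ`

The primes of `n` above `log n` number at most `log n / log log n`, so
`φ n / n ≥ (1 - o (1)) ∏_{p ≤ log n} (1 - 1/p)`; the primorials, by `x# ≤ 4 ^ x`, attain this, and
their powers the bound `σ n / n ≤ n / φ n`.
-/

set_option autoImplicit false

noncomputable section

namespace FA.MertensThird

open Finset Filter Real
open FA.ErdosKac (primesUpTo mem_primesUpTo)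
open scoped Topology

/-- `φ n log log n / n`. -/
def phiRatio (n : ℕ) : ℝ := (n.totient : ℝ) * log (log n) / n

/-- `σ n / (n log log n)`. -/
def sigmaRatio (n : ℕ) : ℝ := (∑ d ∈ n.divisors, (d : ℝ)) / (n * log (log n))

theorem one_sub_inv_prime_nonneg {S : Finset ℕ} (hS : ∀ p ∈ S, p.Prime) :
    ∀ p ∈ S, (0 : ℝ) ≤ 1 - (p : ℝ)⁻¹ := fun p hp =>
  sub_nonneg.2 (inv_le_one_of_one_le₀ (Nat.one_le_cast.2 (hS p hp).one_le))

theorem totient_eq_prod (n : ℕ) :
    (n.totient : ℝ) = n * ∏ p ∈ n.primeFactors, (1 - (p : ℝ)⁻¹) := by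
  have h := congrArg (Rat.cast : ℚ → ℝ) (Nat.totient_eq_mul_prod_factors n)
  push_cast at h
  exact h

theorem tendsto_loglog_natCast : Tendsto (fun n : ℕ => log (log n)) atTop atTop :=
  Real.tendsto_log_atTop.comp (Real.tendsto_log_atTop.comp tendsto_natCast_atTop_atTop)

/-- **Landau's lower bound.** -/
theorem eventually_le_phiRatio {a : ℝ} (ha : a < Real.exp (-eulerMascheroniConstant)) :
    ∀ᶠ n : ℕ in atTop, a ≤ phiRatio n := by
  have hlogn : Tendsto (fun n : ℕ => log n) atTop atTop :=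
    Real.tendsto_log_atTop.comp tendsto_natCast_atTop_atTop
  have hlim := (tendsto_log_mul_prod.comp hlogn).mul
    ((tendsto_const_nhds (x := (1 : ℝ))).sub (tendsto_loglog_natCast.const_div_atTop 1))
  rw [sub_zero, mul_one] at hlim
  filter_upwards [hlim.eventually (eventually_ge_nhds ha), hlogn.eventually_gt_atTop 1,
    eventually_ge_atTop 2] with n hn hL hn2
  refine hn.trans ?_
  simp only [Function.comp_apply]
  obtain ⟨L, hLd⟩ : ∃ L, L = log (n : ℝ) := ⟨_, rfl⟩
  rw [← hLd] at hL ⊢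
  obtain ⟨l, hld⟩ : ∃ l, l = log L := ⟨_, rfl⟩
  rw [← hld]
  have hl0 : 0 < l := hld ▸ Real.log_pos hL
  have hn0 : (0 : ℝ) < n := Nat.cast_pos.2 (by omega)
  rw [phiRatio, totient_eq_prod, ← hLd, ← hld, mul_assoc (n : ℝ), mul_div_cancel_left₀ _ hn0.ne',
    mul_comm _ l, mul_assoc]
  refine mul_le_mul_of_nonneg_left ?_ hl0.le
  obtain ⟨B, hB⟩ : ∃ B, B = n.primeFactors.filter fun p : ℕ => L < (p : ℝ) := ⟨_, rfl⟩
  have hnn := one_sub_inv_prime_nonneg fun p (hp : p ∈ n.primeFactors) =>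
    Nat.prime_of_mem_primeFactors hp
  -- few big primes
  have hcard : (#B : ℝ) * l ≤ L := by
    refine le_trans ?_ (show ∑ p ∈ B, log (p : ℝ) ≤ L from ?_)
    · rw [← nsmul_eq_mul]
      refine card_nsmul_le_sum _ _ _ fun p hp => ?_
      rw [hld]
      exact Real.log_le_log (by linarith) (mem_filter.1 (hB ▸ hp)).2.le
    · rw [← Real.log_prod fun p hp => Nat.cast_ne_zero.2
        (Nat.prime_of_mem_primeFactors (mem_filter.1 (hB ▸ hp)).1).ne_zero, hLd, ← Nat.cast_prod]
      refine Real.log_le_log (Nat.cast_pos.2 (prod_pos fun p hp =>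
        (Nat.prime_of_mem_primeFactors (mem_filter.1 (hB ▸ hp)).1).pos)) (Nat.cast_le.2
          ((Nat.le_of_dvd ?_ (prod_dvd_prod_of_subset _ _ _ (hB ▸ filter_subset _ _))).trans
            (Nat.le_of_dvd (by omega) (Nat.prod_primeFactors_dvd n))))
      exact prod_pos fun p hp => (Nat.prime_of_mem_primeFactors hp).pos
  have hbig : 1 - 1 / l ≤ ∏ p ∈ B, (1 - (p : ℝ)⁻¹) := by
    have hL1 : L⁻¹ ≤ 1 := inv_le_one_of_one_le₀ hL.le
    refine le_trans ?_ (prod_le_prod (f := fun _ : ℕ => 1 - L⁻¹)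
      (fun p _ => sub_nonneg.2 hL1) fun p hp =>
        sub_le_sub_left (inv_anti₀ (by linarith) (mem_filter.1 (hB ▸ hp)).2.le) 1)
    rw [prod_const]
    refine le_trans ?_ ((sub_eq_add_neg (1 : ℝ) L⁻¹).symm ▸
      one_add_mul_le_pow (by linarith) #B)
    have h1 : (#B : ℝ) * L⁻¹ ≤ 1 / l := by
      rw [← div_eq_mul_inv, div_le_div_iff₀ (by linarith) hl0, one_mul]
      exact hcard
    linarith
  have hsmall : ∏ p ∈ primesUpTo ⌊L⌋₊, (1 - (p : ℝ)⁻¹) ≤
      ∏ p ∈ n.primeFactors.filter (fun p : ℕ => ¬ L < (p : ℝ)), (1 - (p : ℝ)⁻¹) := by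
    have hnn' := one_sub_inv_prime_nonneg fun p (hp : p ∈ primesUpTo ⌊L⌋₊) =>
      (mem_primesUpTo.1 hp).1
    have hsub : n.primeFactors.filter (fun p : ℕ => ¬ L < (p : ℝ)) ⊆ primesUpTo ⌊L⌋₊ :=
      fun p hp => by
        rw [mem_filter, not_lt] at hp
        exact mem_primesUpTo.2 ⟨Nat.prime_of_mem_primeFactors hp.1, Nat.le_floor hp.2⟩
    rw [← prod_sdiff hsub]
    exact mul_le_of_le_one_left (prod_nonneg fun p hp => hnn' p (hsub hp)) (prod_le_one
      (fun p hp => hnn' p (Finset.mem_sdiff.1 hp).1)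
      fun p _ => sub_le_self _ (inv_nonneg.2 (Nat.cast_nonneg p)))
  rw [← prod_filter_mul_prod_filter_not n.primeFactors (fun p : ℕ => L < (p : ℝ)), ← hB,
    mul_comm (∏ p ∈ B, _)]
  rcases le_or_gt 0 (1 - 1 / l) with h | h
  · exact mul_le_mul hsmall hbig h (prod_nonneg fun p hp => hnn p (mem_filter.1 hp).1)
  · exact (mul_nonpos_of_nonneg_of_nonpos (prod_nonneg (one_sub_inv_prime_nonneg fun p hp =>
      (mem_primesUpTo.1 hp).1)) h.le).trans (mul_nonneg
        (prod_nonneg fun p hp => hnn p (mem_filter.1 hp).1)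
        (prod_nonneg fun p hp => hnn p (mem_filter.1 (hB ▸ hp)).1))

theorem primeFactors_primorial_pow (x : ℕ) {k : ℕ} (hk : k ≠ 0) :
    (primorial x ^ k).primeFactors = primesUpTo x := by
  rw [Nat.primeFactors_pow _ hk, primeFactors_primorial]
  ext p
  simp [Nat.mem_primesLE, mem_primesUpTo, and_comm]

theorem tendsto_primorial_pow {k : ℕ} (hk : k ≠ 0) :
    Tendsto (fun x : ℕ => primorial x ^ k) atTop atTop :=
  tendsto_atTop_mono (fun _ => le_primorial_self.trans (Nat.le_self_pow hk _)) tendsto_id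

theorem loglog_primorial_pow_le {x k : ℕ} (hx : 3 ≤ x) (hk : k ≠ 0) :
    log (log ((primorial x ^ k : ℕ) : ℝ)) ≤ log k + log (log 4) + log x := by
  have hx1 : (3 : ℝ) ≤ primorial x := Nat.ofNat_le_cast.2 (hx.trans le_primorial_self)
  have hk0 : (0 : ℝ) < k := Nat.cast_pos.2 (Nat.pos_of_ne_zero hk)
  have hl : 0 < log 4 := Real.log_pos (by norm_num)
  have hx0 : (0 : ℝ) < x := Nat.cast_pos.2 (by omega)
  rw [Nat.cast_pow, Real.log_pow, Real.log_mul hk0.ne' (Real.log_pos (by linarith)).ne',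
    add_assoc, ← Real.log_mul hl.ne' hx0.ne']
  refine add_le_add le_rfl (Real.log_le_log (Real.log_pos (by linarith)) ?_)
  rw [mul_comm, ← Real.log_pow]
  exact Real.log_le_log (by linarith) (by exact_mod_cast primorial_le_four_pow x)

theorem tendsto_add_log_mul_prod (c : ℝ) :
    Tendsto (fun x : ℕ => (c + log x) * ∏ p ∈ primesUpTo x, (1 - (p : ℝ)⁻¹)) atTop
      (𝓝 (Real.exp (-eulerMascheroniConstant))) := by
  have h := tendsto_log_mul_prod.comp tendsto_natCast_atTop_atTop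
  have h0 : Tendsto (fun x : ℕ => c / log x) atTop (𝓝 0) :=
    (Real.tendsto_log_atTop.comp tendsto_natCast_atTop_atTop).const_div_atTop c
  have h1 := (h0.const_add 1).mul h
  rw [add_zero, one_mul] at h1
  refine h1.congr' ?_
  filter_upwards [eventually_ge_atTop 2] with x hx
  have : log (x : ℝ) ≠ 0 := (Real.log_pos (Nat.one_lt_cast.2 hx)).ne'
  simp only [Function.comp_apply, Nat.floor_natCast]
  field_simp
  ring

/-- Along the primorials `φ n log log n / n` is small. -/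
theorem frequently_phiRatio_le {b : ℝ} (hb : Real.exp (-eulerMascheroniConstant) < b) :
    ∃ᶠ n : ℕ in atTop, phiRatio n ≤ b := by
  refine (tendsto_primorial_pow one_ne_zero).frequently (Eventually.frequently ?_)
  filter_upwards [(tendsto_add_log_mul_prod (log (1 : ℕ) + log (log 4))).eventually
    (eventually_le_nhds hb), eventually_ge_atTop 3] with x hx hx3
  refine le_trans ?_ hx
  have hn0 : ((primorial x ^ 1 : ℕ) : ℝ) ≠ 0 := Nat.cast_ne_zero.2 (by simp [primorial_ne_zero])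
  rw [phiRatio, totient_eq_prod, primeFactors_primorial_pow x one_ne_zero, mul_assoc,
    mul_div_cancel_left₀ _ hn0, mul_comm]
  exact mul_le_mul_of_nonneg_right (loglog_primorial_pow_le hx3 one_ne_zero)
    (prod_nonneg (one_sub_inv_prime_nonneg fun p hp => (mem_primesUpTo.1 hp).1))

theorem liminf_phiRatio : liminf phiRatio atTop = Real.exp (-eulerMascheroniConstant) := by
  have hbdd : IsBoundedUnder (· ≥ ·) atTop phiRatio :=
    ⟨Real.exp (-eulerMascheroniConstant) - 1, eventually_le_phiRatio (by linarith)⟩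
  refine le_antisymm (le_of_forall_pos_le_add fun e he =>
    liminf_le_of_frequently_le (frequently_phiRatio_le (by linarith)) hbdd) ?_
  refine le_of_forall_sub_le fun e he => le_liminf_of_le ?_ (eventually_le_phiRatio (by linarith))
  exact IsCoboundedUnder.of_frequently_le (frequently_phiRatio_le (b := _ + 1) (lt_add_one _))

/-- `σ n φ n ≤ n²`. -/
theorem sum_divisors_mul_totient_le (n : ℕ) :
    (∑ d ∈ n.divisors, (d : ℝ)) * n.totient ≤ (n : ℝ) ^ 2 := by
  rcases eq_or_ne n 0 with rfl | hn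
  · simp
  have hsig : (∑ d ∈ n.divisors, (d : ℝ)) =
      ∏ p ∈ n.primeFactors, ∑ i ∈ range (n.factorization p + 1), (p : ℝ) ^ i := by
    rw [← Nat.cast_sum, Nat.sum_divisors hn]
    push_cast
    rfl
  have hpow : (n : ℝ) = ∏ p ∈ n.primeFactors, (p : ℝ) ^ n.factorization p := by
    exact_mod_cast congrArg (Nat.cast : ℕ → ℝ) (Nat.prod_factorization_pow_eq_self hn).symm
  rw [totient_eq_prod, ← mul_assoc, mul_comm _ (n : ℝ), mul_assoc, sq, hsig, ← prod_mul_distrib]
  refine mul_le_mul_of_nonneg_left ?_ (Nat.cast_nonneg n)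
  rw [hpow]
  refine prod_le_prod (fun p hp => mul_nonneg (sum_nonneg fun i _ => by positivity)
    (one_sub_inv_prime_nonneg (fun q hq => Nat.prime_of_mem_primeFactors hq) p hp)) fun p hp => ?_
  have hp0 : (0 : ℝ) < p := Nat.cast_pos.2 (Nat.prime_of_mem_primeFactors hp).pos
  refine le_of_mul_le_mul_left ?_ hp0
  rw [mul_left_comm, mul_sub, mul_inv_cancel₀ hp0.ne', mul_one, geom_sum_mul, ← pow_succ']
  linarith

/-- **Gronwall's upper bound.** -/
theorem eventually_sigmaRatio_le {b : ℝ} (hb : Real.exp eulerMascheroniConstant < b) :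
    ∀ᶠ n : ℕ in atTop, sigmaRatio n ≤ b := by
  have hb0 : 0 < b := (Real.exp_pos _).trans hb
  have hb' : b⁻¹ < Real.exp (-eulerMascheroniConstant) := by
    rw [Real.exp_neg]
    exact inv_strictAnti₀ (Real.exp_pos _) hb
  filter_upwards [eventually_le_phiRatio hb', tendsto_loglog_natCast.eventually_gt_atTop 0,
    eventually_ge_atTop 1] with n hn hl hn1
  have hn0 : (0 : ℝ) < n := Nat.cast_pos.2 hn1
  have hs : 0 ≤ ∑ d ∈ n.divisors, (d : ℝ) := sum_nonneg fun d _ => Nat.cast_nonneg d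
  rw [phiRatio, le_div_iff₀ hn0, inv_mul_le_iff₀ hb0] at hn
  rw [sigmaRatio, div_le_iff₀ (mul_pos hn0 hl)]
  refine le_of_mul_le_mul_right ?_ hn0
  calc (∑ d ∈ n.divisors, (d : ℝ)) * n
      ≤ (∑ d ∈ n.divisors, (d : ℝ)) * (b * ((n.totient : ℝ) * log (log n))) :=
        mul_le_mul_of_nonneg_left hn hs
    _ = (∑ d ∈ n.divisors, (d : ℝ)) * n.totient * (b * log (log n)) := by ring
    _ ≤ (n : ℝ) ^ 2 * (b * log (log n)) :=
        mul_le_mul_of_nonneg_right (sum_divisors_mul_totient_le n) (by positivity)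
    _ = b * (n * log (log n)) * n := by ring

theorem one_sub_sum_le_prod_one_sub {ι : Type*} (s : Finset ι) {f : ι → ℝ}
    (h0 : ∀ i ∈ s, 0 ≤ f i) (h1 : ∀ i ∈ s, f i ≤ 1) :
    1 - ∑ i ∈ s, f i ≤ ∏ i ∈ s, (1 - f i) := by
  classical
  induction s using Finset.induction_on with
  | empty => simp
  | insert a s ha ih =>
    rw [sum_insert ha, prod_insert ha]
    have hs : 0 ≤ ∑ i ∈ s, f i := sum_nonneg fun i hi => h0 i (mem_insert_of_mem hi)
    have hmul := mul_le_mul_of_nonneg_left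
      (ih (fun i hi => h0 i (mem_insert_of_mem hi)) fun i hi => h1 i (mem_insert_of_mem hi))
      (sub_nonneg.2 (h1 a (mem_insert_self a s)))
    nlinarith [mul_nonneg (h0 a (mem_insert_self a s)) hs]

/-- Powers of primorials. -/
theorem sum_divisors_primorial_pow_ge (x : ℕ) {k : ℕ} (hk : k ≠ 0) :
    ((primorial x ^ k : ℕ) : ℝ) * (1 - (1 / 2) ^ (k - 1)) ≤
      (∑ d ∈ (primorial x ^ k).divisors, (d : ℝ)) * ∏ p ∈ primesUpTo x, (1 - (p : ℝ)⁻¹) := by
  have hpr : ∀ p ∈ primesUpTo x, (p.Prime ∧ (2 : ℝ) ≤ p) := fun p hp =>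
    ⟨(mem_primesUpTo.1 hp).1, Nat.ofNat_le_cast.2 (mem_primesUpTo.1 hp).1.two_le⟩
  have hsig : (∑ d ∈ (primorial x ^ k).divisors, (d : ℝ)) =
      ∏ p ∈ primesUpTo x, ∑ i ∈ range (k + 1), (p : ℝ) ^ i := by
    rw [← Nat.cast_sum, Nat.sum_divisors (pow_ne_zero k (primorial_ne_zero x)),
      primeFactors_primorial_pow x hk, Nat.cast_prod]
    refine prod_congr rfl fun p hp => ?_
    rw [Nat.factorization_pow, Finsupp.smul_apply, smul_eq_mul,
      Nat.factorization_eq_one_of_squarefree (squarefree_primorial x) (hpr p hp).1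
        (Nat.dvd_of_mem_primeFactors (n := primorial x) (by
          rwa [← Nat.primeFactors_pow (primorial x) hk, primeFactors_primorial_pow x hk])),
      mul_one]
    push_cast
    rfl
  have hn : ((primorial x ^ k : ℕ) : ℝ) = ∏ p ∈ primesUpTo x, (p : ℝ) ^ k := by
    rw [prod_pow, ← Nat.cast_prod, ← Nat.cast_pow, primorial]
    congr 3
    ext p
    simp [mem_primesUpTo, and_comm]
  obtain ⟨f, hf⟩ : ∃ f : ℕ → ℝ, f = fun p : ℕ => ((p : ℝ)⁻¹) ^ (k + 1) := ⟨_, rfl⟩
  have hterm : ∀ p ∈ primesUpTo x,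
      (∑ i ∈ range (k + 1), (p : ℝ) ^ i) * (1 - (p : ℝ)⁻¹) = (p : ℝ) ^ k * (1 - f p) := by
    intro p hp
    have hp0 : (p : ℝ) ≠ 0 := by linarith [(hpr p hp).2]
    refine mul_left_cancel₀ hp0 ?_
    rw [mul_left_comm, mul_sub, mul_inv_cancel₀ hp0, mul_one, geom_sum_mul, hf]
    simp only [inv_pow]
    field_simp
    ring
  rw [hsig, hn, ← prod_mul_distrib, prod_congr rfl hterm, prod_mul_distrib]
  refine mul_le_mul_of_nonneg_left ?_ (prod_nonneg fun p _ => by positivity)
  have hf1 : ∀ p ∈ primesUpTo x, f p ≤ (1 / 2) ^ (k - 1) * ((p : ℝ) ^ 2)⁻¹ := fun p hp => by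
    rw [hf]
    simp only
    rw [show k + 1 = (k - 1) + 2 by omega, pow_add, inv_pow (p : ℝ) 2]
    refine mul_le_mul_of_nonneg_right (pow_le_pow_left₀ (by positivity) ?_ _) (by positivity)
    rw [one_div]
    exact inv_anti₀ two_pos (hpr p hp).2
  refine le_trans (sub_le_sub_left ((sum_le_sum hf1).trans ?_) 1)
    (one_sub_sum_le_prod_one_sub _ (fun p hp => hf ▸ by positivity) fun p hp => ?_)
  · rw [← mul_sum]
    refine mul_le_of_le_one_right (by positivity) ?_
    refine (LinearSieve.sum_inv_sq_ge_le le_rfl fun p hp => (hpr p hp).1.two_le).trans ?_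
    norm_num
  · rw [hf]
    exact pow_le_one₀ (by positivity) (inv_le_one_of_one_le₀ (by linarith [(hpr p hp).2]))

/-- Along powers of the primorials `σ n / (n log log n)` is large. -/
theorem frequently_le_sigmaRatio {a : ℝ} (ha : a < Real.exp eulerMascheroniConstant) :
    ∃ᶠ n : ℕ in atTop, a ≤ sigmaRatio n := by
  obtain ⟨k, hk, hak⟩ : ∃ k : ℕ, k ≠ 0 ∧
      a < Real.exp eulerMascheroniConstant * (1 - (1 / 2) ^ (k - 1)) := by
    have h : Tendsto (fun k : ℕ => Real.exp eulerMascheroniConstant * (1 - (1 / 2 : ℝ) ^ k))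
        atTop (𝓝 (Real.exp eulerMascheroniConstant)) := by
      simpa using ((tendsto_pow_atTop_nhds_zero_of_lt_one (show (0 : ℝ) ≤ 1 / 2 by norm_num)
        (by norm_num)).const_sub 1).const_mul (Real.exp eulerMascheroniConstant)
    obtain ⟨k, hk⟩ := (h.eventually (eventually_gt_nhds ha)).exists
    exact ⟨k + 1, k.succ_ne_zero, by simpa using hk⟩
  refine (tendsto_primorial_pow hk).frequently (Eventually.frequently ?_)
  have hlim := ((tendsto_add_log_mul_prod (log k + log (log 4))).inv₀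
    (Real.exp_pos _).ne').mul_const (1 - (1 / 2 : ℝ) ^ (k - 1))
  rw [← Real.exp_neg, neg_neg] at hlim
  filter_upwards [hlim.eventually (eventually_ge_nhds hak), eventually_ge_atTop 3,
    (tendsto_loglog_natCast.comp (tendsto_primorial_pow hk)).eventually_gt_atTop 0]
    with x hx hx3 hl
  simp only [Function.comp_apply] at hl
  refine hx.trans ?_
  have hn0 : (0 : ℝ) < ((primorial x ^ k : ℕ) : ℝ) :=
    Nat.cast_pos.2 (pow_pos (primorial_pos x) k)
  have hprod : 0 < ∏ p ∈ primesUpTo x, (1 - (p : ℝ)⁻¹) := prod_pos fun p hp =>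
    sub_pos.2 (inv_lt_one_of_one_lt₀ (Nat.one_lt_cast.2 (mem_primesUpTo.1 hp).1.one_lt))
  have hle := loglog_primorial_pow_le hx3 hk
  rw [sigmaRatio, le_div_iff₀ (mul_pos hn0 hl), mul_assoc, mul_comm (_⁻¹ : ℝ),
    ← div_eq_mul_inv, div_le_iff₀ (mul_pos (by linarith) hprod)]
  have hD : 0 ≤ ∑ d ∈ (primorial x ^ k).divisors, (d : ℝ) :=
    sum_nonneg fun d _ => Nat.cast_nonneg d
  calc (1 - (1 / 2 : ℝ) ^ (k - 1)) *
        (((primorial x ^ k : ℕ) : ℝ) * log (log ((primorial x ^ k : ℕ) : ℝ)))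
      = ((primorial x ^ k : ℕ) : ℝ) * (1 - (1 / 2) ^ (k - 1)) *
          log (log ((primorial x ^ k : ℕ) : ℝ)) := by ring
    _ ≤ (∑ d ∈ (primorial x ^ k).divisors, (d : ℝ)) *
          (∏ p ∈ primesUpTo x, (1 - (p : ℝ)⁻¹)) * log (log ((primorial x ^ k : ℕ) : ℝ)) :=
        mul_le_mul_of_nonneg_right (sum_divisors_primorial_pow_ge x hk) hl.le
    _ ≤ (∑ d ∈ (primorial x ^ k).divisors, (d : ℝ)) *
          (∏ p ∈ primesUpTo x, (1 - (p : ℝ)⁻¹)) * (log k + log (log 4) + log x) :=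
        mul_le_mul_of_nonneg_left hle (mul_nonneg hD hprod.le)
    _ = _ := by ring

theorem limsup_sigmaRatio : limsup sigmaRatio atTop = Real.exp eulerMascheroniConstant := by
  have hbdd : IsBoundedUnder (· ≤ ·) atTop sigmaRatio :=
    ⟨Real.exp eulerMascheroniConstant + 1, eventually_sigmaRatio_le (by linarith)⟩
  refine le_antisymm (le_of_forall_pos_le_add fun e he => limsup_le_of_le
    (IsCoboundedUnder.of_frequently_ge (frequently_le_sigmaRatio (a := _ - 1) (sub_one_lt _)))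
    (eventually_sigmaRatio_le (by linarith))) ?_
  exact le_of_forall_sub_le fun e he =>
    le_limsup_of_frequently_le (frequently_le_sigmaRatio (by linarith)) hbdd

end FA.MertensThird
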