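import Fermat.Agent.LinearSieve.Mertens
import Fermat.Agent.ErdosKac.Mertens

/-!
# Mertens' constant exists

A bounded `u` with `u n ≤ u m + C / log m` for `2 ≤ m ≤ n` converges; this needs only the one-sided
estimate for `∑_{m < p ≤ n} 1 / p`.
-/

set_option autoImplicit false

noncomputable section

namespace FA.MertensThird

open Finset Filter Real
open FA.ErdosKac (primesUpTo recipSum)
open scoped Topology

theorem recipSum_sub {m n : ℕ} (h : m ≤ n) :
    recipSum n - recipSum m = ∑ q ∈ (Ioc m n).filter Nat.Prime, (q : ℝ)⁻¹ := by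
  have e : ∀ k, recipSum k = ∑ q ∈ (Ioc 0 k).filter Nat.Prime, (q : ℝ)⁻¹ := fun k => rfl
  simp only [e, sum_filter]
  rw [sub_eq_iff_eq_add', sum_Ioc_consecutive _ (Nat.zero_le m) h]

/-- `∑_{p ≤ n} 1 / p - log log n` converges. -/
theorem exists_tendsto_recipSum :
    ∃ M : ℝ, Tendsto (fun n : ℕ => recipSum n - log (log n)) atTop (𝓝 M) := by
  obtain ⟨C, hC, hstep⟩ := LinearSieve.exists_sum_prime_inv_Ioc_le
  obtain ⟨B, hB⟩ := ErdosKac.exists_abs_recipSum_sub_le
  obtain ⟨v, hv⟩ : ∃ v : ℕ → ℝ, v = fun n => recipSum n - log (log n) + C / log n := ⟨_, rfl⟩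
  have hle : ∀ m n : ℕ, 2 ≤ m → m ≤ n → recipSum n - log (log n) ≤ v m := fun m n hm hmn => by
    rw [hv]
    simp only
    have h := hstep m n hm hmn
    rw [← recipSum_sub hmn] at h
    linarith
  have hlow : ∀ n, 2 ≤ n → -B ≤ v n := fun n hn => by
    have h1 := (abs_le.1 (hB n hn)).1
    have h2 : 0 ≤ C / log n := div_nonneg hC (Real.log_natCast_nonneg n)
    rw [hv]
    simp only
    linarith
  have hne : (v '' Set.Ici 2).Nonempty := Set.nonempty_Ici.image v
  have hbdd : BddBelow (v '' Set.Ici 2) := ⟨-B, by rintro _ ⟨n, hn, rfl⟩; exact hlow n hn⟩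
  refine ⟨sInf (v '' Set.Ici 2), tendsto_order.2 ⟨fun a ha => ?_, fun a ha => ?_⟩⟩
  · have hlim : ∀ᶠ n : ℕ in atTop, C / log n < sInf (v '' Set.Ici 2) - a :=
      ((Real.tendsto_log_atTop.comp tendsto_natCast_atTop_atTop).const_div_atTop C).eventually
        (eventually_lt_nhds (sub_pos.2 ha))
    filter_upwards [hlim, eventually_ge_atTop 2] with n h1 h2
    have h3 := csInf_le hbdd ⟨n, h2, rfl⟩
    rw [hv] at h3 h1
    simp only at h3
    linarith
  · obtain ⟨_, ⟨m, hm, rfl⟩, hlt⟩ := exists_lt_of_csInf_lt hne ha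
    filter_upwards [eventually_ge_atTop m] with n hn
    exact (hle m n hm hn).trans_lt hlt

/-- `log log ⌊x⌋ - log log x → 0`. -/
theorem tendsto_loglog_floor_sub :
    Tendsto (fun x : ℝ => log (log (⌊x⌋₊ : ℕ)) - log (log x)) atTop (𝓝 0) := by
  have h0 : Tendsto (fun x : ℝ => -(2 * log 2 / log x)) atTop (𝓝 0) := by
    simpa using (Real.tendsto_log_atTop.const_div_atTop (2 * log 2)).neg
  refine tendsto_of_tendsto_of_tendsto_of_le_of_le' h0 tendsto_const_nhds ?_ ?_
  all_goals filter_upwards [eventually_ge_atTop (4 : ℝ)] with x hx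
  · have h1 : (3 : ℝ) ≤ ⌊x⌋₊ := by
      exact_mod_cast Nat.le_floor (show ((3 : ℕ) : ℝ) ≤ x by norm_num; linarith)
    have hy : 0 < log (⌊x⌋₊ : ℕ) := Real.log_pos (by linarith)
    have hle : log x ≤ log (⌊x⌋₊ : ℕ) + log 2 := by
      rw [← Real.log_mul (by linarith) two_ne_zero]
      exact Real.log_le_log (by linarith) (by linarith [Nat.lt_floor_add_one x])
    have h4 : log 4 ≤ log x := Real.log_le_log (by norm_num) hx
    rw [show (4 : ℝ) = 2 * 2 by norm_num, Real.log_mul two_ne_zero two_ne_zero] at h4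
    have h2 := Real.log_two_gt_d9
    have h5 := Real.log_le_sub_one_of_pos (show 0 < log x / log (⌊x⌋₊ : ℕ) from
      div_pos (by linarith) hy)
    rw [Real.log_div (by linarith) hy.ne'] at h5
    have h6 : log x / log (⌊x⌋₊ : ℕ) - 1 ≤ 2 * log 2 / log x := by
      rw [div_sub_one hy.ne', div_le_div_iff₀ hy (by linarith)]
      nlinarith
    linarith
  · have h1 : (3 : ℝ) ≤ ⌊x⌋₊ := by
      exact_mod_cast Nat.le_floor (show ((3 : ℕ) : ℝ) ≤ x by norm_num; linarith)
    have := Real.log_le_log (Real.log_pos (by linarith))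
      (Real.log_le_log (by linarith) (Nat.floor_le (show 0 ≤ x by linarith)))
    linarith

end FA.MertensThird
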